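import Fermat.Agent.Interpolation.Chain
import Mathlib.ModelTheory.Satisfiability

/-!
# Amalgamation of two expansions

Two theories in extensions of a language which no sentence of that language separates have models
with isomorphic reducts. The models are limits of interleaved elementary chains.
-/

set_option autoImplicit false

universe u v w

namespace FA.Interpolation

open FirstOrder Language

variable {L L₁ L₂ : Language.{u, v}}

/-- A finitely satisfiable set of formulas is satisfiable. -/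
theorem exists_realize {α : Type w} (T : L₁.Theory) (Γ : Set (L₁.Formula α))
    (h : ∀ s : Finset (L₁.Formula α), (s : Set _) ⊆ Γ →
      ∃ (K : Theory.ModelType.{u, v, max u v w} T) (x : α → K), ∀ φ ∈ s, φ.Realize x) :
    ∃ (K : Theory.ModelType.{u, v, max u v w} T) (x : α → K), ∀ φ ∈ Γ, φ.Realize x := by
  classical
  have hsat : Theory.IsSatisfiable
      ((L₁.lhomWithConstants α).onTheory T ∪ Formula.equivSentence '' Γ) := by
    rw [Theory.isSatisfiable_iff_isFinitelySatisfiable]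
    intro t ht
    let s := (t.image Formula.equivSentence.symm).filter (· ∈ Γ)
    obtain ⟨K, x, hx⟩ := h s fun φ hφ => (Finset.mem_filter.1 hφ).2
    let : (constantsOn α).Structure K := constantsOn.structure x
    refine @Theory.Model.isSatisfiable _ _ K _ _ ⟨fun ψ hψ => ?_⟩
    rcases ht hψ with hT | ⟨φ, hφ, rfl⟩
    · exact ((LHom.onTheory_model _ _).2 K.is_model).realize_of_mem ψ hT
    · exact (Formula.realize_equivSentence K φ).2 (hx φ (Finset.mem_filter.2
        ⟨Finset.mem_image.2 ⟨_, hψ, Equiv.symm_apply_apply _ _⟩, hφ⟩))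
  obtain ⟨N⟩ := hsat
  refine ⟨(N.is_model.mono Set.subset_union_left).bundled.reduct _, fun a => (L₁.con a : N),
    fun φ hφ => ?_⟩
  let := (L₁.lhomWithConstants α).reduct N
  exact (Formula.realize_equivSentence N φ).1
    (N.is_model.realize_of_mem _ (.inr ⟨φ, hφ, rfl⟩))

/-- An elementary map into a reduct, with further formulas to be true. -/
theorem exists_extension (ι : L →ᴸ L₁) (T : L₁.Theory) {B : Type (max u v)} [L.Structure B]
    [Nonempty B] (Γ : Set (L₁.Formula B))
    (h : ∀ (F : Finset B) (θ : L.Formula F), θ.Realize (fun b : F => (b : B)) →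
      ∀ s : Finset (L₁.Formula B), (s : Set _) ⊆ Γ →
        ∃ (K : Theory.ModelType.{u, v, max u v} T) (x : B → K),
          (ι.onFormula θ).Realize (fun b : F => x b) ∧ ∀ φ ∈ s, φ.Realize x) :
    ∃ (K : Theory.ModelType.{u, v, max u v} T) (x : B → K),
      (∀ φ ∈ Γ, φ.Realize x) ∧ ∀ (n : ℕ) (θ : L.Formula (Fin n)) (y : Fin n → B),
        θ.Realize y ↔ (ι.onFormula θ).Realize (x ∘ y) := by
  classical
  let D : Set (L₁.Formula B) :=
    {φ | ∃ (n : ℕ) (θ : L.Formula (Fin n)) (y : Fin n → B),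
      θ.Realize y ∧ (ι.onFormula θ).relabel y = φ}
  obtain ⟨K, x, hx⟩ := exists_realize T (Γ ∪ D) fun s hs => by
    let t := s.filter (· ∈ D)
    have ht : ∀ φ : t, ∃ (n : ℕ) (θ : L.Formula (Fin n)) (y : Fin n → B),
        θ.Realize y ∧ (ι.onFormula θ).relabel y = φ.1 := fun φ => (Finset.mem_filter.1 φ.2).2
    choose n θ y hθ hφ using ht
    let F : Finset B := Finset.univ.biUnion fun φ : t => Finset.univ.image (y φ)
    let g : ∀ φ : t, Fin (n φ) → F := fun φ k => ⟨y φ k,
      Finset.mem_biUnion.2 ⟨φ, Finset.mem_univ _, Finset.mem_image_of_mem _ (Finset.mem_univ k)⟩⟩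
    let Θ : L.Formula F := Formula.iInf fun φ : t => (θ φ).relabel (g φ)
    obtain ⟨K, x, hxΘ, hxs⟩ := h F Θ
      (Formula.realize_iInf.2 fun φ => Formula.realize_relabel.2 (hθ φ))
      (s.filter (· ∈ Γ)) fun φ hφ => (Finset.mem_filter.1 hφ).2
    refine ⟨K, x, fun φ hφs => ?_⟩
    rcases hs hφs with hΓ | hD
    · exact hxs φ (Finset.mem_filter.2 ⟨hφs, hΓ⟩)
    · have hmem : φ ∈ t := Finset.mem_filter.2 ⟨hφs, hD⟩
      let := ι.reduct K
      rw [LHom.realize_onFormula, Formula.realize_iInf] at hxΘ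
      have := Formula.realize_relabel.1 (hxΘ ⟨φ, hmem⟩)
      have e : (ι.onFormula (θ ⟨φ, hmem⟩)).relabel (y ⟨φ, hmem⟩) = φ := hφ ⟨φ, hmem⟩
      rw [← e, Formula.realize_relabel, LHom.realize_onFormula]
      exact this
  refine ⟨K, x, fun φ hφ => hx φ (.inl hφ), fun n θ y => ⟨fun hθ => ?_, fun hθ => ?_⟩⟩
  · exact Formula.realize_relabel.1 (hx _ (.inr ⟨n, θ, y, hθ, rfl⟩))
  · by_contra hn
    have := Formula.realize_relabel.1 (hx _ (.inr ⟨n, θ.not, y, hn, rfl⟩))
    exact this hθ

/-- One step: an elementary map is continued back, composing to an elementary extension. -/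
theorem exists_step (ι : L →ᴸ L₁) {T : L₁.Theory} (A : Theory.ModelType.{u, v, max u v} T)
    {B : Type (max u v)} [L.Structure B] [Nonempty B] (f : A → B)
    (hf : ∀ (n : ℕ) (θ : L.Formula (Fin n)) (x : Fin n → A),
      (ι.onFormula θ).Realize x ↔ θ.Realize (f ∘ x)) :
    ∃ (A' : Theory.ModelType.{u, v, max u v} T) (e : A ↪ₑ[L₁] A') (g : B → A'),
      (∀ a, g (f a) = e a) ∧ ∀ (n : ℕ) (θ : L.Formula (Fin n)) (y : Fin n → B),
        θ.Realize y ↔ (ι.onFormula θ).Realize (g ∘ y) := by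
  classical
  let : L.Structure A := ι.reduct A
  have hf' : ∀ (n : ℕ) (θ : L.Formula (Fin n)) (x : Fin n → A),
      θ.Realize (f ∘ x) ↔ θ.Realize x := fun n θ x => by
    rw [← hf, LHom.realize_onFormula]
  let fe : A ↪ₑ[L] B := ⟨f, hf'⟩
  obtain ⟨K, x, hx, hcompat⟩ := exists_extension ι T
    {φ : L₁.Formula B | ∃ (n : ℕ) (ψ : L₁.Formula (Fin n)) (a : Fin n → A),
      ψ.Realize a ∧ ψ.relabel (f ∘ a) = φ} fun F θ hθ s hs => by
    have hs' : ∀ φ : s, ∃ (n : ℕ) (ψ : L₁.Formula (Fin n)) (a : Fin n → A),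
        ψ.Realize a ∧ ψ.relabel (f ∘ a) = φ.1 := fun φ => hs φ.2
    choose n ψ a hψ hφ using hs'
    let G : Finset A := Finset.univ.biUnion fun φ : s => Finset.univ.image (a φ)
    let F' : Finset B := F ∪ G.image f
    let θ' : L.Formula (G ⊕ F') :=
      θ.relabel (fun b => Sum.inr ⟨b.1, Finset.mem_union_left _ b.2⟩) ⊓
        Formula.iInf fun p : G => Term.equal (.var (.inl p))
          (.var (.inr ⟨f p, Finset.mem_union_right _ (Finset.mem_image_of_mem f p.2)⟩))
    have hB : (θ'.iExs F').Realize (fe ∘ fun p : G => (p : A)) :=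
      Formula.realize_iExs.2 ⟨fun b => (b : B), by
        simp only [θ', Formula.realize_inf, Formula.realize_relabel, Formula.realize_iInf,
          Formula.realize_equal]
        exact ⟨hθ, fun p => rfl⟩⟩
    obtain ⟨z, hz⟩ := Formula.realize_iExs.1 ((fe.map_formula _ _).1 hB)
    simp only [θ', Formula.realize_inf, Formula.realize_relabel, Formula.realize_iInf,
      Formula.realize_equal, Term.realize_var, Sum.elim_inl, Sum.elim_inr] at hz
    let x : B → A := fun b => if hb : b ∈ F' then z ⟨b, hb⟩ else Classical.arbitrary A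
    have hxz : ∀ b : F', x b = z b := fun b => dif_pos b.2
    refine ⟨A, x, ?_, fun φ hφs => ?_⟩
    · rw [LHom.realize_onFormula]
      convert hz.1 using 1
      exact funext fun b => hxz ⟨b.1, Finset.mem_union_left _ b.2⟩
    · have e : (ψ ⟨φ, hφs⟩).relabel (f ∘ a ⟨φ, hφs⟩) = φ := hφ ⟨φ, hφs⟩
      rw [← e, Formula.realize_relabel]
      convert hψ ⟨φ, hφs⟩ using 1
      funext k
      have hk : a ⟨φ, hφs⟩ k ∈ G := Finset.mem_biUnion.2
        ⟨_, Finset.mem_univ _, Finset.mem_image_of_mem _ (Finset.mem_univ k)⟩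
      exact (hxz ⟨_, Finset.mem_union_right _ (Finset.mem_image_of_mem f hk)⟩).trans
        (hz.2 ⟨_, hk⟩).symm
  have he : ∀ (n : ℕ) (ψ : L₁.Formula (Fin n)) (a : Fin n → A),
      ψ.Realize ((x ∘ f) ∘ a) ↔ ψ.Realize a := by
    intro n ψ a
    refine ⟨fun h => ?_, fun h => ?_⟩
    · by_contra hn
      have := Formula.realize_relabel.1 (hx _ ⟨n, ψ.not, a, hn, rfl⟩)
      exact this h
    · have := Formula.realize_relabel.1 (hx _ ⟨n, ψ, a, h, rfl⟩)
      exact this
  exact ⟨K, ⟨x ∘ f, he⟩, x, fun _ => rfl, hcompat⟩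

/-- A link of the two chains: models with an elementary map of the reducts. -/
structure Link (ι₁ : L →ᴸ L₁) (ι₂ : L →ᴸ L₂) (T₁ : L₁.Theory) (T₂ : L₂.Theory) :
    Type (max u v + 1) where
  left : Theory.ModelType.{u, v, max u v} T₁
  right : Theory.ModelType.{u, v, max u v} T₂
  map : left → right
  compat : ∀ (n : ℕ) (θ : L.Formula (Fin n)) (x : Fin n → left),
    (ι₁.onFormula θ).Realize x ↔ (ι₂.onFormula θ).Realize (map ∘ x)

variable {ι₁ : L →ᴸ L₁} {ι₂ : L →ᴸ L₂} {T₁ : L₁.Theory} {T₂ : L₂.Theory}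

/-- The chains go on. -/
theorem exists_next (s : Link ι₁ ι₂ T₁ T₂) :
    ∃ (t : Link ι₁ ι₂ T₁ T₂) (eA : s.left ↪ₑ[L₁] t.left) (eB : s.right ↪ₑ[L₂] t.right),
      (∀ a, t.map (eA a) = eB (s.map a)) ∧ ∀ b, ∃ a', t.map a' = eB b := by
  let : L.Structure s.right := ι₂.reduct s.right
  obtain ⟨A', eA, g, hg, hgc⟩ := exists_step ι₁ s.left s.map fun n θ x => by
    rw [s.compat, LHom.realize_onFormula]
  let : L.Structure A' := ι₁.reduct A'
  obtain ⟨B', eB, h, hh, hhc⟩ := exists_step ι₂ s.right g fun n θ y => by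
    rw [LHom.realize_onFormula, hgc, LHom.realize_onFormula]
  refine ⟨⟨A', B', h, fun n θ x => ?_⟩, eA, eB, fun a => ?_, fun b => ⟨g b, hh b⟩⟩
  · rw [LHom.realize_onFormula, hhc]
  · change h (eA a) = eB (s.map a)
    rw [← hg, hh]

/-- There is a first link if no sentence separates the theories. -/
theorem exists_link (h₁ : ∀ θ : L.Sentence,
    ¬(T₁ ⊨ᵇ ι₁.onSentence θ ∧ T₂ ⊨ᵇ (ι₂.onSentence θ).not)) : Nonempty (Link ι₁ ι₂ T₁ T₂) := by
  classical
  let S : Set L.Sentence := {σ | T₂ ⊨ᵇ (ι₂.onSentence σ).not}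
  obtain ⟨A, x, hx⟩ := exists_realize T₁ ((fun σ => (ι₁.onSentence σ).not) '' S) fun s hs => by
    by_contra! hn
    choose σ hσ hσe using fun φ : s => hs φ.2
    refine h₁ (Formula.iSup σ) ⟨Theory.models_sentence_iff.2 fun M => ?_,
      Theory.models_sentence_iff.2 fun M => ?_⟩
    · obtain ⟨φ, hφs, hφ⟩ := hn M default
      let : L.Structure M := ι₁.reduct M
      rw [LHom.realize_onSentence, Sentence.Realize, Formula.realize_iSup]
      refine ⟨⟨φ, hφs⟩, ?_⟩
      have e : (ι₁.onSentence (σ ⟨φ, hφs⟩)).not = φ := hσe ⟨φ, hφs⟩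
      rw [← e, Formula.realize_not, not_not] at hφ
      exact (LHom.realize_onSentence M _ _).1 hφ
    · let : L.Structure M := ι₂.reduct M
      rw [Sentence.realize_not, LHom.realize_onSentence, Sentence.Realize, Formula.realize_iSup]
      rintro ⟨φ, hφ⟩
      exact (Sentence.realize_not M).1 ((hσ φ).realize_sentence M)
        ((LHom.realize_onSentence M _ _).2 hφ)
  have hA : ∀ σ ∈ S, ¬A ⊨ ι₁.onSentence σ := fun σ hσ h => by
    have := hx _ ⟨σ, hσ, rfl⟩
    rw [Formula.realize_not, Unique.eq_default x] at this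
    exact this h
  let : L.Structure A := ι₁.reduct A
  obtain ⟨B, y, -, hy⟩ := exists_extension ι₂ T₂ (B := A) ∅ fun F θ hθ s hs => by
    let σ : L.Sentence := (θ.relabel Sum.inr).iExs F
    have hAσ : A ⊨ ι₁.onSentence σ := by
      rw [LHom.realize_onSentence, Sentence.Realize]
      exact Formula.realize_iExs.2 ⟨fun b => (b : A), Formula.realize_relabel.2 hθ⟩
    obtain ⟨K, hK⟩ : ∃ K : Theory.ModelType.{u, v, max u v} T₂, K ⊨ ι₂.onSentence σ := by
      by_contra! hK
      exact hA σ (Theory.models_sentence_iff.2 fun K => (Sentence.realize_not K).2 (hK K)) hAσ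
    let : L.Structure K := ι₂.reduct K
    rw [LHom.realize_onSentence, Sentence.Realize] at hK
    obtain ⟨z, hz⟩ := Formula.realize_iExs.1 hK
    refine ⟨K, fun b => if hb : b ∈ F then z ⟨b, hb⟩ else Classical.arbitrary K, ?_,
      fun φ hφ => (hs hφ).elim⟩
    rw [LHom.realize_onFormula]
    convert Formula.realize_relabel.1 hz using 1
    exact funext fun b => dif_pos b.2
  exact ⟨⟨A, B, y, fun n θ z => by rw [LHom.realize_onFormula]; exact hy n θ z⟩⟩

end FA.Interpolation
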