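import Mathlib.ModelTheory.DirectLimit
import Mathlib.ModelTheory.ElementaryMaps

/-!
# Elementary chains

The limit of a chain of elementary embeddings is an elementary extension of every link (Tarski and
Vaught 1957).
-/

set_option autoImplicit false

universe u v w

namespace FA.Interpolation

open FirstOrder Language

variable {L : Language.{u, v}} {G : ℕ → Type w} [∀ i, L.Structure (G i)]

/-- The embedding of a link of an elementary chain in a later one. -/
abbrev chainMap (f : ∀ k, G k ↪ₑ[L] G (k + 1)) (i j : ℕ) (h : i ≤ j) : G i ↪[L] G j :=
  DirectedSystem.natLERec (fun k => (f k).toEmbedding) i j h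

variable (f : ∀ k, G k ↪ₑ[L] G (k + 1))

/-- The maps between the links are elementary. -/
theorem realize_chainMap {i j : ℕ} (h : i ≤ j) {α : Type*} {m : ℕ} (φ : L.BoundedFormula α m)
    (x : α → G i) (y : Fin m → G i) :
    φ.Realize (chainMap f i j h ∘ x) (chainMap f i j h ∘ y) ↔ φ.Realize x y := by
  induction h with
  | refl =>
    simp [chainMap, DirectedSystem.coe_natLERec, Nat.leRecOn_self, Function.comp_def]
  | @step j h ih =>
    have e : (chainMap f i (j + 1) (Nat.le.step h) : G i → G (j + 1)) =
        f j ∘ chainMap f i j h := funext fun a => by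
      simp [chainMap, DirectedSystem.coe_natLERec, Nat.leRecOn_succ h]
    rw [e, Function.comp_assoc, Function.comp_assoc, ElementaryEmbedding.map_boundedFormula, ih]

/-- The limit of an elementary chain. -/
abbrev ChainLimit : Type w :=
  Language.DirectLimit G (chainMap f)

/-- A link of a chain in the limit. -/
noncomputable abbrev toLimit (i : ℕ) : G i ↪[L] ChainLimit f :=
  Language.DirectLimit.of L ℕ G (chainMap f) i

theorem toLimit_succ (i : ℕ) (a : G i) : toLimit f (i + 1) (f i a) = toLimit f i a := by
  have h := Language.DirectLimit.of_f (L := L) (f := chainMap f) (hij := Nat.le_succ i) (x := a)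
  rwa [show chainMap f i (i + 1) (Nat.le_succ i) a = f i a by
    simp [chainMap, DirectedSystem.coe_natLERec, Nat.leRecOn_succ'] ] at h

theorem exists_toLimit (z : ChainLimit f) : ∃ i a, toLimit f i a = z :=
  Language.DirectLimit.exists_of z

/-- **The elementary chain theorem.** -/
theorem realize_toLimit {α : Type*} {m : ℕ} (φ : L.BoundedFormula α m) :
    ∀ (i : ℕ) (x : α → G i) (y : Fin m → G i),
      φ.Realize (toLimit f i ∘ x) (toLimit f i ∘ y) ↔ φ.Realize x y := by
  induction φ with
  | falsum => exact fun _ _ _ => Iff.rfl
  | equal t₁ t₂ =>
    intro i x y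
    simp only [BoundedFormula.Realize]
    rw [← Sum.comp_elim, HomClass.realize_term, HomClass.realize_term]
    exact (toLimit f i).injective.eq_iff
  | rel R ts =>
    intro i x y
    simp only [BoundedFormula.Realize]
    rw [← Sum.comp_elim, show (fun k => (ts k).realize (toLimit f i ∘ Sum.elim x y)) =
      toLimit f i ∘ fun k => (ts k).realize (Sum.elim x y) from
        funext fun k => HomClass.realize_term (toLimit f i)]
    exact (toLimit f i).map_rel R _
  | imp φ ψ ihφ ihψ => exact fun i x y => imp_congr (ihφ i x y) (ihψ i x y)
  | all φ ih =>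
    intro i x y
    simp only [BoundedFormula.realize_all]
    refine ⟨fun h a => ?_, fun h z => ?_⟩
    · rw [← ih i x, Fin.comp_snoc]
      exact h _
    · obtain ⟨j, a, rfl⟩ := exists_toLimit f z
      have e : ∀ (k l : ℕ) (hkl : k ≤ l) (b : G k),
          toLimit f l (chainMap f k l hkl b) = toLimit f k b :=
        fun _ _ _ _ => Language.DirectLimit.of_f
      have hi := (realize_chainMap f (le_max_left i j) φ.all x y).2 (BoundedFormula.realize_all.2 h)
      have := (ih (max i j) _ _).2
        (BoundedFormula.realize_all.1 hi (chainMap f j _ (le_max_right i j) a))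
      rw [Fin.comp_snoc, e] at this
      rwa [show toLimit f (max i j) ∘ chainMap f i _ (le_max_left i j) ∘ x = toLimit f i ∘ x from
          funext fun k => e _ _ _ (x k),
        show toLimit f (max i j) ∘ chainMap f i _ (le_max_left i j) ∘ y = toLimit f i ∘ y from
          funext fun k => e _ _ _ (y k)] at this

/-- A link is an elementary substructure of the limit. -/
noncomputable def toLimitElementary (i : ℕ) : G i ↪ₑ[L] ChainLimit f where
  toFun := toLimit f i
  map_formula' _ φ x := by
    have := realize_toLimit f φ i x default
    rwa [Formula.Realize, Formula.Realize, ← Unique.eq_default (toLimit f i ∘ default)]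

end FA.Interpolation
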