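import Fermat.Agent.Interpolation.Limit

/-!
# Interpolation and definability

The amalgamation gives Robinson's theorem on consistent unions; Craig's interpolation and Beth's
definability follow.
-/

set_option autoImplicit false

universe u v w

namespace FA.Interpolation

open FirstOrder Language

variable {L L₁ L₂ : Language.{u, v}}

/-- A structure for a sum is the sum of its two reducts. -/
theorem sumStructure_reduct {M : Type w} (S : (L.sum L₁).Structure M) :
    @sumStructure L L₁ M ((LHom.sumInl : L →ᴸ L.sum L₁).reduct M)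
      ((LHom.sumInr : L₁ →ᴸ L.sum L₁).reduct M) = S := by
  ext1
  · funext n f x
    cases f <;> rfl
  · funext n r x
    cases r <;> rfl

/-- **Robinson's joint consistency.** If no sentence of the common language separates two theories
they have a common model. -/
theorem exists_common_model (T₁ : (L.sum L₁).Theory) (T₂ : (L.sum L₂).Theory)
    (h : ∀ θ : L.Sentence, ¬(T₁ ⊨ᵇ (LHom.sumInl : L →ᴸ L.sum L₁).onSentence θ ∧
      T₂ ⊨ᵇ ((LHom.sumInl : L →ᴸ L.sum L₂).onSentence θ).not)) :
    ∃ (M : Type (max u v)) (_ : Nonempty M) (iL : L.Structure M) (i₁ : L₁.Structure M)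
      (i₂ : L₂.Structure M), @Theory.Model _ M (@sumStructure L L₁ M iL i₁) T₁ ∧
        @Theory.Model _ M (@sumStructure L L₂ M iL i₂) T₂ := by
  obtain ⟨A, B, ⟨e⟩⟩ := exists_amalgam h
  let iL : L.Structure A := (LHom.sumInl : L →ᴸ L.sum L₁).reduct A
  let iB : L.Structure B := (LHom.sumInl : L →ᴸ L.sum L₂).reduct B
  let i₂ : L₂.Structure A :=
    { funMap := fun g x => e.toEquiv.symm (Structure.funMap (L := L.sum L₂) (Sum.inr g)
        (e.toEquiv ∘ x))
      RelMap := fun r x => Structure.RelMap (L := L.sum L₂) (Sum.inr r) (e.toEquiv ∘ x) }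
  refine ⟨A, inferInstance, iL, (LHom.sumInr : L₁ →ᴸ L.sum L₁).reduct A, i₂, ?_, ?_⟩
  · rw [sumStructure_reduct]
    exact A.is_model
  · let : (L.sum L₂).Structure A := @sumStructure L L₂ A iL i₂
    let E : A ≃[L.sum L₂] B :=
      { toEquiv := e.toEquiv
        map_fun' := fun {n} f x => by
          cases f with
          | inl f => exact e.map_fun' f x
          | inr g => exact e.toEquiv.apply_symm_apply _
        map_rel' := fun {n} r x => by
          cases r with
          | inl r => exact e.map_rel' r x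
          | inr r => exact Iff.rfl }
    exact ⟨fun φ hφ =>
      (StrongHomClass.realize_sentence E φ).2 (B.is_model.realize_of_mem φ hφ)⟩

/-- **Interpolation.** -/
theorem exists_interpolant (φ : (L.sum L₁).Sentence) (ψ : (L.sum L₂).Sentence)
    (h : ∀ (M : Type (max u v)) [Nonempty M] [L.Structure M] [L₁.Structure M] [L₂.Structure M],
      M ⊨ φ → M ⊨ ψ) :
    ∃ θ : L.Sentence,
      (∀ (M : Type w) [Nonempty M] [L.Structure M] [L₁.Structure M], M ⊨ φ → M ⊨ θ) ∧
        ∀ (M : Type w) [Nonempty M] [L.Structure M] [L₂.Structure M], M ⊨ θ → M ⊨ ψ := by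
  obtain ⟨θ, h₁, h₂⟩ : ∃ θ : L.Sentence,
      ({φ} : (L.sum L₁).Theory) ⊨ᵇ (LHom.sumInl : L →ᴸ L.sum L₁).onSentence θ ∧
        ({ψ.not} : (L.sum L₂).Theory) ⊨ᵇ
          ((LHom.sumInl : L →ᴸ L.sum L₂).onSentence θ).not := by
    by_contra hno
    obtain ⟨M, hM, iL, i₁, i₂, hφ, hψ⟩ := exists_common_model {φ} {ψ.not}
      fun θ hθ => hno ⟨θ, hθ⟩
    exact (Sentence.realize_not M).1 (hψ.realize_of_mem _ rfl)
      (h M (hφ.realize_of_mem _ rfl))
  refine ⟨θ, fun M _ _ _ hφ => ?_, fun M _ _ _ hθ => ?_⟩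
  · have : M ⊨ ({φ} : (L.sum L₁).Theory) := ⟨fun χ hχ => by rwa [Set.mem_singleton_iff.1 hχ]⟩
    exact (LHom.realize_onSentence M _ θ).1 (h₁.realize_sentence M)
  · by_contra hψ
    have : M ⊨ ({ψ.not} : (L.sum L₂).Theory) := ⟨fun χ hχ => by
      rw [Set.mem_singleton_iff.1 hχ]
      exact (Sentence.realize_not M).2 hψ⟩
    exact (Sentence.realize_not M).1 (h₂.realize_sentence M)
      ((LHom.realize_onSentence M _ θ).2 hθ)

/-- **Definability.** A formula determined by the reduct is equivalent to a formula of the smaller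
language. -/
theorem exists_definition (T : (L.sum L₁).Theory) {n : ℕ} (φ : (L.sum L₁).Formula (Fin n))
    (h : ∀ (M : Type (max u v)) [Nonempty M] [L.Structure M] (S S' : L₁.Structure M),
      @Theory.Model _ M (@sumStructure L L₁ M _ S) T →
      @Theory.Model _ M (@sumStructure L L₁ M _ S') T → ∀ x : Fin n → M,
        @Formula.Realize _ M (@sumStructure L L₁ M _ S) _ φ x →
        @Formula.Realize _ M (@sumStructure L L₁ M _ S') _ φ x) :
    ∃ θ : L.Formula (Fin n), ∀ (M : Type w) [Nonempty M] [L.Structure M] [L₁.Structure M],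
      M ⊨ T → ∀ x : Fin n → M, φ.Realize x ↔ θ.Realize x := by
  let j : L.sum L₁ →ᴸ L[[Fin n]].sum L₁ := (L.lhomWithConstants (Fin n)).sumMap (LHom.id L₁)
  let φc : (L[[Fin n]].sum L₁).Sentence :=
    (j.onFormula φ).subst fun i => Term.func (Sum.inl (L.con i)) default
  obtain ⟨θ, h₁, h₂⟩ : ∃ θ : L[[Fin n]].Sentence,
      (j.onTheory T ∪ {φc}) ⊨ᵇ (LHom.sumInl : L[[Fin n]] →ᴸ _).onSentence θ ∧
        (j.onTheory T ∪ {φc.not}) ⊨ᵇ ((LHom.sumInl : L[[Fin n]] →ᴸ _).onSentence θ).not := by
    by_contra hno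
    obtain ⟨M, hM, iL, i₁, i₂, hpos, hneg⟩ := exists_common_model (j.onTheory T ∪ {φc})
      (j.onTheory T ∪ {φc.not}) fun θ hθ => hno ⟨θ, hθ⟩
    let : L.Structure M := (L.lhomWithConstants (Fin n)).reduct M
    have hT : ∀ (S : L₁.Structure M) (χ : (L[[Fin n]].sum L₁).Sentence),
        @Theory.Model _ M (@sumStructure _ L₁ M iL S) (j.onTheory T ∪ {χ}) →
          @Theory.Model _ M (@sumStructure L L₁ M _ S) T ∧
            @Sentence.Realize _ M (@sumStructure _ L₁ M iL S) χ := fun S χ hm =>
      ⟨(LHom.onTheory_model j T).1 (hm.mono Set.subset_union_left),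
        hm.realize_of_mem _ (.inr rfl)⟩
    obtain ⟨hT₁, hpos'⟩ := hT i₁ φc hpos
    obtain ⟨hT₂, hneg'⟩ := hT i₂ φc.not hneg
    have hval : ∀ (S : L₁.Structure M), @Sentence.Realize _ M (@sumStructure _ L₁ M iL S) φc ↔
        @Formula.Realize _ M (@sumStructure L L₁ M _ S) _ φ fun i => (L.con i : M) := fun S => by
      rw [Sentence.Realize, Formula.Realize, BoundedFormula.realize_subst, ← Formula.Realize,
        LHom.realize_onFormula]
      exact iff_of_eq (congrArg _ (funext fun i => congrArg _ (funext fun k => k.elim0)))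
    exact (Sentence.realize_not M).1 hneg'
      ((hval i₂).2 (h M i₁ i₂ hT₁ hT₂ _ ((hval i₁).1 hpos')))
  refine ⟨Formula.equivSentence.symm θ, fun M _ _ _ hM x => ?_⟩
  let : (constantsOn (Fin n)).Structure M := constantsOn.structure x
  have hval : M ⊨ φc ↔ φ.Realize x := by
    rw [Sentence.Realize, Formula.Realize, BoundedFormula.realize_subst, ← Formula.Realize,
      LHom.realize_onFormula]
    exact iff_of_eq (congrArg _ (funext fun i => rfl))
  rw [Formula.realize_equivSentence_symm]
  constructor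
  · intro hx
    have : M ⊨ j.onTheory T ∪ {φc} := ((LHom.onTheory_model _ _).2 hM).union ⟨fun χ hχ => by
      rw [Set.mem_singleton_iff.1 hχ]
      exact hval.2 hx⟩
    exact (LHom.realize_onSentence M _ θ).1 (h₁.realize_sentence M)
  · intro hθ
    by_contra hx
    have : M ⊨ j.onTheory T ∪ {φc.not} := ((LHom.onTheory_model _ _).2 hM).union ⟨fun χ hχ => by
      rw [Set.mem_singleton_iff.1 hχ]
      exact (Sentence.realize_not M).2 fun hc => hx (hval.1 hc)⟩
    exact (Sentence.realize_not M).1 (h₂.realize_sentence M)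
      ((LHom.realize_onSentence M _ θ).2 hθ)

end FA.Interpolation
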