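import Fermat.Agent.Interpolation.Amalgam

/-!
# Robinson's joint consistency

The limits of the two interleaved chains have isomorphic reducts to the common language.
-/

set_option autoImplicit false

universe u v

namespace FA.Interpolation

open FirstOrder Language

variable {L L₁ L₂ : Language.{u, v}} {ι₁ : L →ᴸ L₁} {ι₂ : L →ᴸ L₂} {T₁ : L₁.Theory}
  {T₂ : L₂.Theory}

/-- **The amalgamation.** Theories which no sentence of the common language separates have models
with isomorphic reducts. -/
theorem exists_amalgam (h₁ : ∀ θ : L.Sentence,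
    ¬(T₁ ⊨ᵇ ι₁.onSentence θ ∧ T₂ ⊨ᵇ (ι₂.onSentence θ).not)) :
    ∃ (A : Theory.ModelType.{u, v, max u v} T₁) (B : Theory.ModelType.{u, v, max u v} T₂),
      Nonempty (@Language.Equiv L A B (ι₁.reduct A) (ι₂.reduct B)) := by
  classical
  obtain ⟨s₀⟩ := exists_link h₁
  choose next eA eB hcomm honto using
    fun s : Link ι₁ ι₂ T₁ T₂ => exists_next s
  let st : ℕ → Link ι₁ ι₂ T₁ T₂ := fun k => Nat.rec s₀ (fun _ s => next s) k
  let fA : ∀ k, (st k).left ↪ₑ[L₁] (st (k + 1)).left := fun k => eA (st k)
  let fB : ∀ k, (st k).right ↪ₑ[L₂] (st (k + 1)).right := fun k => eB (st k)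
  let R : ChainLimit fA → ChainLimit fB → Prop := fun z w =>
    ∃ k a, toLimit fA k a = z ∧ toLimit fB k ((st k).map a) = w
  have hraise : ∀ {k m : ℕ}, k ≤ m → ∀ a, ∃ a', toLimit fA m a' = toLimit fA k a ∧
      toLimit fB m ((st m).map a') = toLimit fB k ((st k).map a) := by
    intro k m hkm a
    induction hkm with
    | refl => exact ⟨a, rfl, rfl⟩
    | @step m _ ih =>
      obtain ⟨a', e₁, e₂⟩ := ih
      refine ⟨fA m a', (toLimit_succ fA m a').trans e₁, Eq.trans ?_ e₂⟩
      rw [← toLimit_succ fB m]
      exact congrArg _ (hcomm (st m) a')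
  have hR : ∀ (n : ℕ) (θ : L.Formula (Fin n)) (z : Fin n → ChainLimit fA)
      (w : Fin n → ChainLimit fB), (∀ j, R (z j) (w j)) →
      ((ι₁.onFormula θ).Realize z ↔ (ι₂.onFormula θ).Realize w) := by
    intro n θ z w hzw
    choose k a ha hb using hzw
    choose a' ha' hb' using fun j => hraise (Finset.le_sup (Finset.mem_univ j) : k j ≤
      Finset.univ.sup k) (a j)
    obtain rfl : z = toLimitElementary fA _ ∘ a' :=
      funext fun j => ((ha' j).trans (ha j)).symm
    obtain rfl : w = toLimitElementary fB _ ∘ ((st _).map ∘ a') :=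
      funext fun j => ((hb' j).trans (hb j)).symm
    rw [ElementaryEmbedding.map_formula, ElementaryEmbedding.map_formula]
    exact (st _).compat n θ a'
  have : Nonempty (ChainLimit fA) := (inferInstance : Nonempty (st 0).left).map (toLimit fA 0)
  have : Nonempty (ChainLimit fB) := (inferInstance : Nonempty (st 0).right).map (toLimit fB 0)
  have : ChainLimit fA ⊨ T₁ := ((toLimitElementary fA 0).theory_model_iff T₁).1 (st 0).left.is_model
  have : ChainLimit fB ⊨ T₂ :=
    ((toLimitElementary fB 0).theory_model_iff T₂).1 (st 0).right.is_model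
  let : L.Structure (ChainLimit fA) := ι₁.reduct _
  let : L.Structure (ChainLimit fB) := ι₂.reduct _
  have hLR : ∀ (n : ℕ) (θ : L.Formula (Fin n)) (z : Fin n → ChainLimit fA)
      (w : Fin n → ChainLimit fB), (∀ j, R (z j) (w j)) → (θ.Realize z ↔ θ.Realize w) := by
    intro n θ z w hzw
    rw [← LHom.realize_onFormula ι₁, ← LHom.realize_onFormula ι₂, hR n θ z w hzw]
  have htot : ∀ z, ∃ w, R z w := fun z => by
    obtain ⟨k, a, rfl⟩ := exists_toLimit fA z
    exact ⟨_, k, a, rfl, rfl⟩
  have hsur : ∀ w, ∃ z, R z w := fun w => by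
    obtain ⟨k, b, rfl⟩ := exists_toLimit fB w
    obtain ⟨a, ha⟩ := honto (st k) b
    exact ⟨_, k + 1, a, rfl, (congrArg _ ha).trans (toLimit_succ fB k b)⟩
  choose F hF using htot
  choose G hG using hsur
  have hfun : ∀ {z w}, R z w → F z = w := fun {z w} h => by
    have := (hLR 2 (Term.equal (.var (0 : Fin 2)) (.var 1)) ![z, z] ![F z, w]
      (Fin.forall_fin_two.2 ⟨hF z, h⟩)).1 (by simp [Formula.realize_equal])
    simpa [Formula.realize_equal] using this
  have hinj : Function.Injective F := fun z z' h => by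
    have := (hLR 2 (Term.equal (.var (0 : Fin 2)) (.var 1)) ![z, z'] ![F z, F z']
      (Fin.forall_fin_two.2 ⟨hF z, hF z'⟩)).2 (by simp [Formula.realize_equal, h])
    simpa [Formula.realize_equal] using this
  suffices h : Nonempty (ChainLimit fA ≃[L] ChainLimit fB) from
    ⟨Theory.ModelType.of T₁ (ChainLimit fA), Theory.ModelType.of T₂ (ChainLimit fB), h⟩
  refine ⟨⟨Equiv.ofBijective F ⟨hinj, fun w => ⟨G w, hfun (hG w)⟩⟩, fun {m} g x => ?_,
    fun {m} r x => ?_⟩⟩
  · let φ : L.Formula (Fin (m + 1)) :=
      Term.equal (Term.func g fun i => .var i.castSucc) (.var (Fin.last m))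
    have := (hLR _ φ (Fin.snoc x (Structure.funMap g x))
      (Fin.snoc (F ∘ x) (F (Structure.funMap g x))) (fun j => by
        induction j using Fin.lastCases with
        | last => simpa using hF _
        | cast j => simpa using hF (x j))).1 (by simp [φ, Formula.realize_equal])
    change F (Structure.funMap g x) = Structure.funMap g (F ∘ x)
    simpa [φ, Formula.realize_equal, Function.comp_def] using this.symm
  · have := hLR _ (r.formula fun i => .var i) x (F ∘ x) fun j => hF (x j)
    change Structure.RelMap r (F ∘ x) ↔ Structure.RelMap r x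
    simpa [Function.comp_def] using this.symm

end FA.Interpolation
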